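import Fermat.Agent.MUL.Orig.F4.Coind.Shapiro1
import Fermat.Agent.MUL.Orig.F4.DDT.Basic
import Fermat.Agent.MUL.S48.W.Hecke

section MergeWrap_F4_Coind_Homotopy -- from F4/Coind/Homotopy.lean

/-!
# F4 / Coind / Homotopy : the prism homotopy on homogeneous cochains (helper13, seat COIND)

`F : G³ → K⁰`, `B : G² → K¹` are the homogeneous forms of a smooth total 2-cocycle of `coInd K`
(`D`-equivariant, invariant modulo `U`), whose restriction to `D` is the coboundary of `(c₀, c₁)`.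
With an equivariant section `π` and `ρ = r ∘ π` we put
`Γ₀ g₀ g₁ = C(π g₀, π g₁) - F(g₀, ρ g₀, ρ g₁) + F(g₀, g₁, ρ g₁)`, `Γ₁ g₀ = π g₀ • c₁ + B(g₀, ρ g₀)`
and prove that `(Γ₀, Γ₁)` is equivariant, invariant modulo `U`, with coboundary `(F, B)`.
-/

set_option autoImplicit false

open CategoryTheory groupCohomology

namespace Fermat.Agent.F4

variable {k D G : Type} [CommRing k] [Group D] [Group G]

/-- The data of the prism homotopy. -/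
structure CoindPrism (r : D →* G) (U : Subgroup G) (K : Cx k D) where
  π : G → D
  hπ : IsCoindSection r U π
  F : G → G → G → K.K0
  B : G → G → K.K1
  c₀ : D → K.K0
  c₁ : K.K1
  F_eq : ∀ d g₀ g₁ g₂, F (r d * g₀) (r d * g₁) (r d * g₂) = K.K0.ρ d (F g₀ g₁ g₂)
  F_inv : ∀ g₀ g₁ g₂ s₀ s₁ s₂, s₀ ∈ U → s₁ ∈ U → s₂ ∈ U →
    F (g₀ * s₀) (g₁ * s₁) (g₂ * s₂) = F g₀ g₁ g₂
  F_coc : ∀ g₀ g₁ g₂ g₃, F g₁ g₂ g₃ - F g₀ g₂ g₃ + F g₀ g₁ g₃ - F g₀ g₁ g₂ = 0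
  B_eq : ∀ d g₀ g₁, B (r d * g₀) (r d * g₁) = K.K1.ρ d (B g₀ g₁)
  B_inv : ∀ g₀ g₁ s₀ s₁, s₀ ∈ U → s₁ ∈ U → B (g₀ * s₀) (g₁ * s₁) = B g₀ g₁
  dF : ∀ g₀ g₁ g₂, K.d (F g₀ g₁ g₂) = B g₁ g₂ - B g₀ g₂ + B g₀ g₁
  Fc : ∀ d₀ d₁ d₂, F (r d₀) (r d₁) (r d₂)
    = coindHom1 K.K0 c₀ d₁ d₂ - coindHom1 K.K0 c₀ d₀ d₂ + coindHom1 K.K0 c₀ d₀ d₁
  Bc : ∀ d₀ d₁, B (r d₀) (r d₁) = K.d (coindHom1 K.K0 c₀ d₀ d₁) - (K.K1.ρ d₁ c₁ - K.K1.ρ d₀ c₁)
  c_inv : ∀ d s, r s ∈ U → c₀ (d * s) = c₀ d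
  c_fix : ∀ d s, r s ∈ U → K.K0.ρ s (c₀ d) = c₀ d
  c₁_fix : ∀ s, r s ∈ U → K.K1.ρ s c₁ = c₁

namespace CoindPrism

variable {r : D →* G} {U : Subgroup G} {K : Cx k D} (P : CoindPrism r U K)

/-- `Γ₀ = π^* C - h^* F`. -/
def Γ₀ (g₀ g₁ : G) : K.K0 :=
  coindHom1 K.K0 P.c₀ (P.π g₀) (P.π g₁) - P.F g₀ (r (P.π g₀)) (r (P.π g₁)) + P.F g₀ g₁ (r (P.π g₁))

/-- `Γ₁ = π^* c₁ + h^* B`. -/
def Γ₁ (g₀ : G) : K.K1 := K.K1.ρ (P.π g₀) P.c₁ + P.B g₀ (r (P.π g₀))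

lemma F_inv₁ (g₀ g₁ g₂ : G) {s₁ : G} (h₁ : s₁ ∈ U) : P.F g₀ (g₁ * s₁) g₂ = P.F g₀ g₁ g₂ := by
  have := P.F_inv g₀ g₁ g₂ 1 s₁ 1 U.one_mem h₁ U.one_mem
  rwa [mul_one, mul_one] at this

lemma F_inv₂ (g₀ g₁ g₂ : G) {s₂ : G} (h₂ : s₂ ∈ U) : P.F g₀ g₁ (g₂ * s₂) = P.F g₀ g₁ g₂ := by
  have := P.F_inv g₀ g₁ g₂ 1 1 s₂ U.one_mem U.one_mem h₂
  rwa [mul_one, mul_one] at this

lemma F_inv₁₂ (g₀ g₁ g₂ : G) {s₁ s₂ : G} (h₁ : s₁ ∈ U) (h₂ : s₂ ∈ U) :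
    P.F g₀ (g₁ * s₁) (g₂ * s₂) = P.F g₀ g₁ g₂ := by
  have := P.F_inv g₀ g₁ g₂ 1 s₁ s₂ U.one_mem h₁ h₂
  rwa [mul_one] at this

lemma B_inv₁ (g₀ g₁ : G) {s₁ : G} (h₁ : s₁ ∈ U) : P.B g₀ (g₁ * s₁) = P.B g₀ g₁ := by
  have := P.B_inv g₀ g₁ 1 s₁ U.one_mem h₁
  rwa [mul_one] at this

variable [hU : U.Normal]

lemma Γ₀_eq (d : D) (g₀ g₁ : G) : P.Γ₀ (r d * g₀) (r d * g₁) = K.K0.ρ d (P.Γ₀ g₀ g₁) := by
  obtain ⟨v, hv, e⟩ := P.hπ.spec_left d g₀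
  obtain ⟨v', hv', e'⟩ := P.hπ.spec_left d g₁
  unfold Γ₀
  rw [e, e', coindHom1_mul_right P.c₀ P.c_inv P.c_fix _ _ hv hv', coindHom1_smul]
  simp only [map_mul, map_sub, map_add]
  rw [P.F_inv₁₂ _ _ _ hv hv', P.F_eq, P.F_inv₂ _ _ _ hv', P.F_eq]

lemma Γ₀_inv (g₀ g₁ : G) {s₀ s₁ : G} (h₀ : s₀ ∈ U) (h₁ : s₁ ∈ U) :
    P.Γ₀ (g₀ * s₀) (g₁ * s₁) = P.Γ₀ g₀ g₁ := by
  obtain ⟨v, hv, e⟩ := P.hπ.spec_right g₀ h₀
  obtain ⟨v', hv', e'⟩ := P.hπ.spec_right g₁ h₁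
  unfold Γ₀
  rw [e, e', coindHom1_mul_right P.c₀ P.c_inv P.c_fix _ _ hv hv']
  simp only [map_mul]
  rw [P.F_inv g₀ (r (P.π g₀)) (r (P.π g₁)) s₀ (r v) (r v') h₀ hv hv',
    P.F_inv g₀ g₁ (r (P.π g₁)) s₀ s₁ (r v') h₀ h₁ hv']

omit hU in
lemma Γ₁_eq (d : D) (g₀ : G) : P.Γ₁ (r d * g₀) = K.K1.ρ d (P.Γ₁ g₀) := by
  obtain ⟨v, hv, e⟩ := P.hπ.spec_left d g₀
  unfold Γ₁
  rw [e]
  simp only [map_mul, map_add, Module.End.mul_apply]
  rw [P.c₁_fix v hv, P.B_inv₁ _ _ hv, P.B_eq]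

omit hU in
lemma Γ₁_inv (g₀ : G) {s₀ : G} (h₀ : s₀ ∈ U) : P.Γ₁ (g₀ * s₀) = P.Γ₁ g₀ := by
  obtain ⟨v, hv, e⟩ := P.hπ.spec_right g₀ h₀
  unfold Γ₁
  rw [e]
  simp only [map_mul, Module.End.mul_apply]
  rw [P.c₁_fix v hv, P.B_inv g₀ (r (P.π g₀)) s₀ (r v) h₀ hv]

omit hU in
/-- The coboundary of `Γ₀` is `F`. -/
lemma cob0 (g₀ g₁ g₂ : G) : P.Γ₀ g₁ g₂ - P.Γ₀ g₀ g₂ + P.Γ₀ g₀ g₁ = P.F g₀ g₁ g₂ := by
  unfold Γ₀
  have hc := P.Fc (P.π g₀) (P.π g₁) (P.π g₂)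
  have e1 := P.F_coc g₀ g₁ g₂ (r (P.π g₂))
  have e2 := P.F_coc g₀ g₁ (r (P.π g₁)) (r (P.π g₂))
  have e3 := P.F_coc g₀ (r (P.π g₀)) (r (P.π g₁)) (r (P.π g₂))
  generalize coindHom1 K.K0 P.c₀ (P.π g₁) (P.π g₂) = C12 at hc ⊢
  generalize coindHom1 K.K0 P.c₀ (P.π g₀) (P.π g₂) = C02 at hc ⊢
  generalize coindHom1 K.K0 P.c₀ (P.π g₀) (P.π g₁) = C01 at hc ⊢
  rw [sub_eq_zero] at e1 e2 e3
  have hc' : C12 - C02 + C01 = P.F (r (P.π g₀)) (r (P.π g₁)) (r (P.π g₂)) := hc.symm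
  rw [← e1]
  have e3' : P.F (r (P.π g₀)) (r (P.π g₁)) (r (P.π g₂))
      = P.F g₀ (r (P.π g₀)) (r (P.π g₁)) + P.F g₀ (r (P.π g₁)) (r (P.π g₂))
        - P.F g₀ (r (P.π g₀)) (r (P.π g₂)) := by
    rw [← e3]; abel
  have e2' : P.F g₀ (r (P.π g₁)) (r (P.π g₂))
      = P.F g₁ (r (P.π g₁)) (r (P.π g₂)) + P.F g₀ g₁ (r (P.π g₂))
        - P.F g₀ g₁ (r (P.π g₁)) := by
    rw [← e2]; abel
  rw [e2'] at e3'
  rw [e3'] at hc'
  have : C12 = P.F g₀ (r (P.π g₀)) (r (P.π g₁)) + (P.F g₁ (r (P.π g₁)) (r (P.π g₂))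
      + P.F g₀ g₁ (r (P.π g₂)) - P.F g₀ g₁ (r (P.π g₁))) - P.F g₀ (r (P.π g₀)) (r (P.π g₂))
      + C02 - C01 := by
    rw [← hc']; abel
  rw [this]
  abel

omit hU in
/-- The second component of the coboundary of `(Γ₀, Γ₁)` is `B`. -/
lemma cob1 (g₀ g₁ : G) : K.d (P.Γ₀ g₀ g₁) - (P.Γ₁ g₁ - P.Γ₁ g₀) = P.B g₀ g₁ := by
  unfold Γ₀ Γ₁
  rw [map_add, map_sub, P.dF, P.dF]
  have hb := P.Bc (P.π g₀) (P.π g₁)
  rw [eq_sub_iff_add_eq] at hb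
  rw [← hb]
  abel

end CoindPrism

end Fermat.Agent.F4
end MergeWrap_F4_Coind_Homotopy

section MergeWrap_F4_Coind_Shapiro2 -- from F4/Coind/Shapiro2.lean

/-!
# F4 / Coind / Shapiro2 : Shapiro's lemma in degree 2 on smooth cochains (helper13, seat COIND)

A smooth total 2-cocycle of `coInd K` whose evaluation (restriction to `D`, then `φ ↦ φ 1`) is a
smooth coboundary of `K` is a smooth coboundary of `coInd K`.
-/

set_option autoImplicit false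

open CategoryTheory groupCohomology

namespace Fermat.Agent.F4

variable {k D G : Type} [CommRing k] [Group D] [Group G]

section Shapiro2

variable (r : D →* G) (𝓤 : Levels G) (K : Cx k D)

lemma Cx.coIndFun0_equivariant (φ : (K.coInd r 𝓤).K0) (d : D) (x : G) :
    K.coIndFun0 r 𝓤 φ (r d * x) = K.K0.ρ d (K.coIndFun0 r 𝓤 φ x) :=
  coIndSub_equivariant (show ↥(coIndSub r 𝓤 K.K0) from φ) d x

lemma Cx.coIndFun1_equivariant (φ : (K.coInd r 𝓤).K1) (d : D) (x : G) :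
    K.coIndFun1 r 𝓤 φ (r d * x) = K.K1.ρ d (K.coIndFun1 r 𝓤 φ x) :=
  coIndSub_equivariant (show ↥(coIndSub r 𝓤 K.K1) from φ) d x

lemma Cx.coIndFun0_equivariant_one (φ : (K.coInd r 𝓤).K0) (d : D) :
    K.coIndFun0 r 𝓤 φ (r d) = K.K0.ρ d (K.coIndFun0 r 𝓤 φ 1) := by
  have := K.coIndFun0_equivariant r 𝓤 φ d 1
  rwa [mul_one] at this

lemma Cx.coIndFun1_equivariant_one (φ : (K.coInd r 𝓤).K1) (d : D) :
    K.coIndFun1 r 𝓤 φ (r d) = K.K1.ρ d (K.coIndFun1 r 𝓤 φ 1) := by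
  have := K.coIndFun1_equivariant r 𝓤 φ d 1
  rwa [mul_one] at this

/-- A uniform level for a smooth 2-cochain with values in `(coInd K)⁰`. -/
lemma exists_level_coInd₂ (A : Rep.{0} k D) {α : G × G → ↥(coIndSub r 𝓤 A)}
    (hα : IsLC₂ 𝓤 α) :
    ∃ U ∈ 𝓤.sets, (∀ g g' s s', s ∈ U → s' ∈ U → α (g * s, g' * s') = α (g, g')) ∧
      ∀ p x s, s ∈ U → (α p : G → A) (x * s) = (α p : G → A) x := by
  obtain ⟨U, hU, h1, h2⟩ := IsLC₂.coind_exists_uniform (A := coInd r 𝓤 A) (coInd_smooth A) hα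
  refine ⟨U, hU, h1, fun p x s hs => ?_⟩
  have := h2 p s hs
  exact congrFun (congrArg Subtype.val this) x

/-- A uniform level for a smooth 1-cochain with values in `(coInd K)¹`. -/
lemma exists_level_coInd₁ (A : Rep.{0} k D) {β : G → ↥(coIndSub r 𝓤 A)}
    (hβ : IsLC₁ 𝓤 β) :
    ∃ U ∈ 𝓤.sets, (∀ g s, s ∈ U → β (g * s) = β g) ∧
      ∀ g x s, s ∈ U → (β g : G → A) (x * s) = (β g : G → A) x := by
  obtain ⟨U, hU, h1, h2⟩ := IsLC₁.coind_exists_uniform (A := coInd r 𝓤 A) (coInd_smooth A) hβ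
  refine ⟨U, hU, h1, fun g x s hs => ?_⟩
  have := h2 g s hs
  exact congrFun (congrArg Subtype.val this) x

/-- **Shapiro's lemma in degree 2** (injectivity, on cochains). -/
theorem shapiro2_coInd (hK : K.Smooth (𝓤.comap r)) (Z : T2 (K.coInd r 𝓤))
    (hZ : Z ∈ ZZ2 𝓤 (K.coInd r 𝓤))
    (h : (evCx r 𝓤 K).onT2 (resT2 r (K.coInd r 𝓤) Z) ∈ BB2 (𝓤.comap r) K) :
    Z ∈ BB2 𝓤 (K.coInd r 𝓤) := by
  obtain ⟨α, β⟩ := Z
  obtain ⟨hz1, hz2, hz3, hz4⟩ := (mem_ZZ2_iff 𝓤 _ (α, β)).1 hZ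
  obtain ⟨⟨c₀, c₁⟩, hc, hD⟩ := (mem_BB2_iff _ K _).1 h
  simp only at hz1 hz2 hz3 hz4 hc
  -- function forms
  set αf : G × G → G → K.K0 := fun p x => K.coIndFun0 r 𝓤 (α p) x with hαf
  set βf : G → G → K.K1 := fun g x => K.coIndFun1 r 𝓤 (β g) x with hβf
  -- levels
  obtain ⟨U₁, hU₁, hα1, hα2⟩ := exists_level_coInd₂ r 𝓤 K.K0 (α := α) hz3
  obtain ⟨U₂, hU₂, hβ1, hβ2⟩ := exists_level_coInd₁ r 𝓤 K.K1 (β := β) hz4
  obtain ⟨U₃, hU₃, hc1, hc2, hc3⟩ := coind_exists_level_T1 r 𝓤 K hK hc c₁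
  obtain ⟨W, hW, hWle⟩ := 𝓤.directed U₁ hU₁ U₂ hU₂
  obtain ⟨U, hU, hUle⟩ := 𝓤.directed W hW U₃ hU₃
  have hUn : U.Normal := 𝓤.normal U hU
  have hUU₁ : U ≤ U₁ := fun s hs => (hWle (hUle hs).1).1
  have hUU₂ : U ≤ U₂ := fun s hs => (hWle (hUle hs).1).2
  have hUU₃ : U ≤ U₃ := fun s hs => (hUle hs).2
  obtain ⟨π, hπ⟩ := exists_isCoindSection r U
  -- invariance of the function forms
  have hαinv : ∀ g g' x s s' s'', s ∈ U → s' ∈ U → s'' ∈ U →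
      αf (g * s, g' * s') (x * s'') = αf (g, g') x := by
    intro g g' x s s' s'' hs hs' hs''
    show K.coIndFun0 r 𝓤 (α (g * s, g' * s')) (x * s'') = K.coIndFun0 r 𝓤 (α (g, g')) x
    rw [hα1 g g' s s' (hUU₁ hs) (hUU₁ hs')]
    exact hα2 (g, g') x s'' (hUU₁ hs'')
  have hβinv : ∀ g x s s'', s ∈ U → s'' ∈ U → βf (g * s) (x * s'') = βf g x := by
    intro g x s s'' hs hs''
    show K.coIndFun1 r 𝓤 (β (g * s)) (x * s'') = K.coIndFun1 r 𝓤 (β g) x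
    rw [hβ1 g s (hUU₂ hs)]
    exact hβ2 g x s'' (hUU₂ hs'')
  -- the cocycle relations, evaluated
  have hcoc : ∀ g h j x, αf (h, j) (x * g) - αf (g * h, j) x + αf (g, h * j) x - αf (g, h) x = 0 := by
    intro g h j x
    have := congrFun hz1 (g, h, j)
    simp only [δ2_apply, Pi.zero_apply] at this
    exact congrFun (congrArg Subtype.val this) x
  have hdα : ∀ g h x, K.d (αf (g, h) x) = βf h (x * g) - βf (g * h) x + βf g x := by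
    intro g h x
    have := congrFun hz2 (g, h)
    simp only [δ1_apply, Cx.dco_apply] at this
    exact congrFun (congrArg Subtype.val this) x
  -- the hypothesis, evaluated
  have hD0 : ∀ d e : D, αf (r d, r e) 1 = K.K0.ρ d (c₀ e) - c₀ (d * e) + c₀ d := by
    intro d e
    have := congrFun (congrArg Prod.fst hD) (d, e)
    simp only [D1_apply, δ1_apply] at this
    exact this.symm
  have hD1 : ∀ d : D, βf (r d) 1 = K.d (c₀ d) - (K.K1.ρ d c₁ - c₁) := by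
    intro d
    have := congrFun (congrArg Prod.snd hD) d
    simp only [D1_apply, Pi.sub_apply, Cx.dco_apply, δ0_apply] at this
    exact this.symm
  -- the prism data
  let P : CoindPrism r U K :=
    { π := π
      hπ := hπ
      F := fun g₀ g₁ g₂ => αf (g₀⁻¹ * g₁, g₁⁻¹ * g₂) g₀
      B := fun g₀ g₁ => βf (g₀⁻¹ * g₁) g₀
      c₀ := c₀
      c₁ := c₁
      F_eq := by
        intro d g₀ g₁ g₂
        have e1 : (r d * g₀)⁻¹ * (r d * g₁) = g₀⁻¹ * g₁ := by group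
        have e2 : (r d * g₁)⁻¹ * (r d * g₂) = g₁⁻¹ * g₂ := by group
        show αf ((r d * g₀)⁻¹ * (r d * g₁), (r d * g₁)⁻¹ * (r d * g₂)) (r d * g₀) = _
        rw [e1, e2]
        exact K.coIndFun0_equivariant r 𝓤 _ d g₀
      F_inv := by
        intro g₀ g₁ g₂ s₀ s₁ s₂ h₀ h₁ h₂
        have e1 : (g₀ * s₀)⁻¹ * (g₁ * s₁)
            = g₀⁻¹ * g₁ * ((g₀⁻¹ * g₁)⁻¹ * s₀⁻¹ * (g₀⁻¹ * g₁) * s₁) := by group
        have e2 : (g₁ * s₁)⁻¹ * (g₂ * s₂)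
            = g₁⁻¹ * g₂ * ((g₁⁻¹ * g₂)⁻¹ * s₁⁻¹ * (g₁⁻¹ * g₂) * s₂) := by group
        show αf ((g₀ * s₀)⁻¹ * (g₁ * s₁), (g₁ * s₁)⁻¹ * (g₂ * s₂)) (g₀ * s₀) = _
        rw [e1, e2]
        refine hαinv _ _ _ _ _ _ ?_ ?_ h₀
        · exact U.mul_mem (𝓤.coind_conj_mem' hU (U.inv_mem h₀) _) h₁
        · exact U.mul_mem (𝓤.coind_conj_mem' hU (U.inv_mem h₁) _) h₂
      F_coc := by
        intro g₀ g₁ g₂ g₃
        have := hcoc (g₀⁻¹ * g₁) (g₁⁻¹ * g₂) (g₂⁻¹ * g₃) g₀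
        have e1 : g₀ * (g₀⁻¹ * g₁) = g₁ := by group
        have e2 : g₀⁻¹ * g₁ * (g₁⁻¹ * g₂) = g₀⁻¹ * g₂ := by group
        have e3 : g₁⁻¹ * g₂ * (g₂⁻¹ * g₃) = g₁⁻¹ * g₃ := by group
        rw [e1, e2, e3] at this
        exact this
      B_eq := by
        intro d g₀ g₁
        have e1 : (r d * g₀)⁻¹ * (r d * g₁) = g₀⁻¹ * g₁ := by group
        show βf ((r d * g₀)⁻¹ * (r d * g₁)) (r d * g₀) = _
        rw [e1]
        exact K.coIndFun1_equivariant r 𝓤 _ d g₀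
      B_inv := by
        intro g₀ g₁ s₀ s₁ h₀ h₁
        have e1 : (g₀ * s₀)⁻¹ * (g₁ * s₁)
            = g₀⁻¹ * g₁ * ((g₀⁻¹ * g₁)⁻¹ * s₀⁻¹ * (g₀⁻¹ * g₁) * s₁) := by group
        show βf ((g₀ * s₀)⁻¹ * (g₁ * s₁)) (g₀ * s₀) = _
        rw [e1]
        exact hβinv _ _ _ _ (U.mul_mem (𝓤.coind_conj_mem' hU (U.inv_mem h₀) _) h₁) h₀
      dF := by
        intro g₀ g₁ g₂
        have := hdα (g₀⁻¹ * g₁) (g₁⁻¹ * g₂) g₀
        have e1 : g₀ * (g₀⁻¹ * g₁) = g₁ := by group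
        have e2 : g₀⁻¹ * g₁ * (g₁⁻¹ * g₂) = g₀⁻¹ * g₂ := by group
        rw [e1, e2] at this
        exact this
      Fc := by
        intro d₀ d₁ d₂
        have e1 : (r d₀)⁻¹ * r d₁ = r (d₀⁻¹ * d₁) := by rw [map_mul, map_inv]
        have e2 : (r d₁)⁻¹ * r d₂ = r (d₁⁻¹ * d₂) := by rw [map_mul, map_inv]
        show αf ((r d₀)⁻¹ * r d₁, (r d₁)⁻¹ * r d₂) (r d₀) = _
        rw [e1, e2]
        have h1 := K.coIndFun0_equivariant_one r 𝓤 (α (r (d₀⁻¹ * d₁), r (d₁⁻¹ * d₂))) d₀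
        have h2 := hD0 (d₀⁻¹ * d₁) (d₁⁻¹ * d₂)
        show K.coIndFun0 r 𝓤 (α (r (d₀⁻¹ * d₁), r (d₁⁻¹ * d₂))) (r d₀) = _
        rw [h1]
        change K.K0.ρ d₀ (αf (r (d₀⁻¹ * d₁), r (d₁⁻¹ * d₂)) 1) = _
        rw [h2]
        unfold coindHom1
        have e3 : d₀⁻¹ * d₁ * (d₁⁻¹ * d₂) = d₀⁻¹ * d₂ := by group
        have e4 : d₀ * (d₀⁻¹ * d₁) = d₁ := by group
        rw [e3, map_add, map_sub, ← Module.End.mul_apply, ← map_mul, e4]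
      Bc := by
        intro d₀ d₁
        have e1 : (r d₀)⁻¹ * r d₁ = r (d₀⁻¹ * d₁) := by rw [map_mul, map_inv]
        show βf ((r d₀)⁻¹ * r d₁) (r d₀) = _
        rw [e1]
        have h1 := K.coIndFun1_equivariant_one r 𝓤 (β (r (d₀⁻¹ * d₁))) d₀
        have h2 := hD1 (d₀⁻¹ * d₁)
        show K.coIndFun1 r 𝓤 (β (r (d₀⁻¹ * d₁))) (r d₀) = _
        rw [h1]
        change K.K1.ρ d₀ (βf (r (d₀⁻¹ * d₁)) 1) = _
        rw [h2]
        unfold coindHom1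
        have e4 : d₀ * (d₀⁻¹ * d₁) = d₁ := by group
        rw [map_sub, map_sub, ← Module.End.mul_apply, ← map_mul, e4, K.comm]
      c_inv := fun d s hs => hc1 d s (hUU₃ hs)
      c_fix := fun d s hs => hc2 d s (hUU₃ hs)
      c₁_fix := fun s hs => hc3 s (hUU₃ hs) }
  -- the cochain
  have hγ₀ : ∀ g : G, (fun x => P.Γ₀ x (x * g)) ∈ coIndSub r 𝓤 K.K0 := by
    intro g
    refine ⟨fun d x => ?_, U, hU, fun x s hs => ?_⟩
    · show P.Γ₀ (r d * x) (r d * x * g) = _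
      rw [mul_assoc, P.Γ₀_eq]
    · show P.Γ₀ (x * s) (x * s * g) = P.Γ₀ x (x * g)
      have e : x * s * g = x * g * (g⁻¹ * s * g) := by group
      rw [e]
      exact P.Γ₀_inv _ _ hs (𝓤.coind_conj_mem' hU hs g)
  have hγ₁ : P.Γ₁ ∈ coIndSub r 𝓤 K.K1 :=
    ⟨fun d x => P.Γ₁_eq d x, U, hU, fun x s hs => P.Γ₁_inv x hs⟩
  let γ₀ : G → ↥(coIndSub r 𝓤 K.K0) := fun g => ⟨_, hγ₀ g⟩
  let γ₁ : ↥(coIndSub r 𝓤 K.K1) := ⟨_, hγ₁⟩
  refine (mem_BB2_iff 𝓤 _ _).2 ⟨(γ₀, γ₁), ?_, ?_⟩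
  · refine ⟨U, hU, fun g s hs => Subtype.ext (funext fun x => ?_)⟩
    show P.Γ₀ x (x * (g * s)) = P.Γ₀ x (x * g)
    rw [← mul_assoc]
    have := P.Γ₀_inv x (x * g) U.one_mem hs
    rwa [mul_one] at this
  · refine Prod.ext (funext fun p => Subtype.ext (funext fun x => ?_))
      (funext fun g => Subtype.ext (funext fun x => ?_))
    · show P.Γ₀ (x * p.1) (x * p.1 * p.2) - P.Γ₀ x (x * (p.1 * p.2)) + P.Γ₀ x (x * p.1)
        = K.coIndFun0 r 𝓤 (α p) x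
      rw [← mul_assoc, P.cob0]
      show αf (x⁻¹ * (x * p.1), (x * p.1)⁻¹ * (x * p.1 * p.2)) x = αf p x
      have e1 : x⁻¹ * (x * p.1) = p.1 := by group
      have e2 : (x * p.1)⁻¹ * (x * p.1 * p.2) = p.2 := by group
      rw [e1, e2]
    · show K.d (P.Γ₀ x (x * g)) - (P.Γ₁ (x * g) - P.Γ₁ x) = K.coIndFun1 r 𝓤 (β g) x
      rw [P.cob1]
      show βf (x⁻¹ * (x * g)) x = βf g x
      have e1 : x⁻¹ * (x * g) = g := by group
      rw [e1]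

end Shapiro2

end Fermat.Agent.F4
end MergeWrap_F4_Coind_Shapiro2

section MergeWrap_F4_Coind_HomSwap -- from F4/Coind/HomSwap.lean

/-!
# F4 / Coind / HomSwap : `Hom(N, coInd K) ≅ coInd Hom(N|_D, K)` and Shapiro with coefficients
(helper13, seat COIND)

For a smooth `k[G]`-module `N`:
* `swapTo` : `coInd Hom(N|_D, A) → Hom(N, coInd A)`, `Ψ ↦ (n ↦ (x ↦ Ψ x (x • n)))`;
* `swapFrom` (`N` finite) : `Hom(N, coInd A) → coInd Hom(N|_D, A)`, `Φ ↦ (x ↦ (n ↦ Φ (x⁻¹ • n) x))`;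
* `shapiro1_hom`, `shapiro2_hom` : Shapiro's lemma in degree 1 (surjectivity) and in degree 2
  (injectivity) for the complexes `Hom(N, coInd K)` and `Hom(N|_D, K)`, on cochains.
-/

set_option autoImplicit false

open CategoryTheory groupCohomology

namespace Fermat.Agent.F4

variable {k D G : Type} [Field k] [Group D] [Group G]

section Swap

variable (r : D →* G) (𝓤 : Levels G) (N : Rep.{0} k G)

/-- The restriction of a smooth module is smooth for the pulled back levels. -/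
lemma coind_isSmooth_res (hN : IsSmooth 𝓤 N) : IsSmooth (𝓤.comap r) (Rep.res r N) := by
  intro n
  obtain ⟨U, hU, h⟩ := hN n
  exact ⟨U.comap r, ⟨U, hU, rfl⟩, fun d hd => h (r d) hd⟩

lemma coind_res_ρ_apply (d : D) (n : N) : (Rep.res r N).ρ d n = N.ρ (r d) n := rfl

variable {N}

/-- `Ψ ↦ (n ↦ (x ↦ Ψ x (x • n)))`. -/
def swapTo (hN : IsSmooth 𝓤 N) (A : Rep.{0} k D) :
    ↥(coIndSub r 𝓤 (homRep (Rep.res r N) A)) →ₗ[k] (N →ₗ[k] ↥(coIndSub r 𝓤 A)) where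
  toFun Ψ :=
    { toFun := fun n => ⟨fun x => ((Ψ : G → (homRep (Rep.res r N) A)) x : N →ₗ[k] A) (N.ρ x n), by
        refine ⟨fun d x => ?_, ?_⟩
        · show ((Ψ : G → (homRep (Rep.res r N) A)) (r d * x) : N →ₗ[k] A) (N.ρ (r d * x) n) = _
          rw [coIndSub_equivariant Ψ d x, homRep_ρ_apply, coind_res_ρ_apply, map_mul,
            Module.End.mul_apply, ← Module.End.mul_apply (N.ρ (r d⁻¹)), ← map_mul, ← map_mul,
            inv_mul_cancel, map_one, map_one, Module.End.one_apply]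
        · obtain ⟨U, hU, h⟩ := coIndSub_isLC Ψ
          obtain ⟨V, hV, h'⟩ := hN n
          obtain ⟨W, hW, hWle⟩ := 𝓤.directed U hU V hV
          refine ⟨W, hW, fun x s hs => ?_⟩
          show ((Ψ : G → (homRep (Rep.res r N) A)) (x * s) : N →ₗ[k] A) (N.ρ (x * s) n) = _
          rw [h x s (hWle hs).1, map_mul, Module.End.mul_apply, h' s (hWle hs).2]⟩
      map_add' := fun n n' => Subtype.ext (funext fun x => by
        show ((Ψ : G → (homRep (Rep.res r N) A)) x : N →ₗ[k] A) (N.ρ x (n + n')) = _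
        rw [map_add, map_add]; rfl)
      map_smul' := fun c n => Subtype.ext (funext fun x => by
        show ((Ψ : G → (homRep (Rep.res r N) A)) x : N →ₗ[k] A) (N.ρ x (c • n)) = _
        rw [map_smul, map_smul]; rfl) }
  map_add' _ _ := rfl
  map_smul' _ _ := rfl

@[simp] lemma swapTo_apply (hN : IsSmooth 𝓤 N) (A : Rep.{0} k D)
    (Ψ : ↥(coIndSub r 𝓤 (homRep (Rep.res r N) A))) (n : N) (x : G) :
    ((swapTo r 𝓤 hN A Ψ n : ↥(coIndSub r 𝓤 A)) : G → A) x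
      = ((Ψ : G → (homRep (Rep.res r N) A)) x : N →ₗ[k] A) (N.ρ x n) := rfl

/-- A finitely generated family of coinduced functions has a common level. -/
lemma exists_level_linearMap [Module.Finite k N] (A : Rep.{0} k D)
    (Φ : N →ₗ[k] ↥(coIndSub r 𝓤 A)) :
    ∃ U ∈ 𝓤.sets, ∀ (n : N) (x s : G), s ∈ U → (Φ n : G → A) (x * s) = (Φ n : G → A) x := by
  classical
  obtain ⟨t, ht⟩ := (Module.finite_def (R := k) (M := N)).1 inferInstance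
  obtain ⟨U, hU, h⟩ := 𝓤.coind_exists_le_of_finite (t : Set N) t.finite_toSet
    (fun n U => ∀ x s : G, s ∈ U → (Φ n : G → A) (x * s) = (Φ n : G → A) x)
    (fun n _ => coIndSub_isLC (Φ n)) (fun _ _ _ hVU h x s hs => h x s (hVU hs))
  refine ⟨U, hU, fun n x s hs => ?_⟩
  have hn : n ∈ Submodule.span k (t : Set N) := by rw [ht]; trivial
  induction hn using Submodule.span_induction with
  | mem y hy => exact h y hy x s hs
  | zero => simp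
  | add y z _ _ hy hz =>
    rw [map_add]
    show (Φ y : G → A) (x * s) + (Φ z : G → A) (x * s) = (Φ y : G → A) x + (Φ z : G → A) x
    rw [hy, hz]
  | smul c y _ hy =>
    rw [map_smul]
    show c • (Φ y : G → A) (x * s) = c • (Φ y : G → A) x
    rw [hy]

/-- `Φ ↦ (x ↦ (n ↦ Φ (x⁻¹ • n) x))`. -/
def swapFrom (hN : IsSmooth 𝓤 N) [Module.Finite k N] (A : Rep.{0} k D) :
    (N →ₗ[k] ↥(coIndSub r 𝓤 A)) →ₗ[k] ↥(coIndSub r 𝓤 (homRep (Rep.res r N) A)) where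
  toFun Φ := ⟨fun x =>
      ({ toFun := fun n => (Φ (N.ρ x⁻¹ n) : G → A) x
         map_add' := fun n n' => by rw [map_add, map_add]; rfl
         map_smul' := fun c n => by rw [map_smul, map_smul]; rfl } : N →ₗ[k] A), by
    refine ⟨fun d x => LinearMap.ext fun n => ?_, ?_⟩
    · show (Φ (N.ρ (r d * x)⁻¹ n) : G → A) (r d * x) = A.ρ d ((Φ (N.ρ x⁻¹ (N.ρ (r d⁻¹) n)) : G → A) x)
      have e : (r d * x)⁻¹ = x⁻¹ * r d⁻¹ := by rw [mul_inv_rev, map_inv]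
      rw [coIndSub_equivariant, e, map_mul, Module.End.mul_apply]
    · obtain ⟨U, hU, h⟩ := exists_level_linearMap r 𝓤 A Φ
      obtain ⟨V, hV, h'⟩ := exists_level_fixing 𝓤 N hN
      obtain ⟨W, hW, hWle⟩ := 𝓤.directed U hU V hV
      refine ⟨W, hW, fun x s hs => LinearMap.ext fun n => ?_⟩
      show (Φ (N.ρ (x * s)⁻¹ n) : G → A) (x * s) = (Φ (N.ρ x⁻¹ n) : G → A) x
      rw [h _ x s (hWle hs).1, mul_inv_rev, map_mul, Module.End.mul_apply,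
        h' s⁻¹ (V.inv_mem (hWle hs).2)]⟩
  map_add' _ _ := rfl
  map_smul' _ _ := rfl

@[simp] lemma swapFrom_apply (hN : IsSmooth 𝓤 N) [Module.Finite k N] (A : Rep.{0} k D)
    (Φ : N →ₗ[k] ↥(coIndSub r 𝓤 A)) (x : G) (n : N) :
    (((swapFrom r 𝓤 hN A Φ : ↥(coIndSub r 𝓤 (homRep (Rep.res r N) A))) :
      G → (homRep (Rep.res r N) A)) x : N →ₗ[k] A) n = (Φ (N.ρ x⁻¹ n) : G → A) x := rfl

lemma swapTo_swapFrom (hN : IsSmooth 𝓤 N) [Module.Finite k N] (A : Rep.{0} k D)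
    (Φ : N →ₗ[k] ↥(coIndSub r 𝓤 A)) : swapTo r 𝓤 hN A (swapFrom r 𝓤 hN A Φ) = Φ := by
  refine LinearMap.ext fun n => Subtype.ext (funext fun x => ?_)
  rw [swapTo_apply, swapFrom_apply, ← Module.End.mul_apply, ← map_mul, inv_mul_cancel, map_one,
    Module.End.one_apply]

/-- `swapTo` as a morphism of complexes of `G`-modules. -/
def swapToCx (hN : IsSmooth 𝓤 N) (K : Cx k D) :
    CxHom ((homCx (Rep.res r N) K).coInd r 𝓤) (homCx N (K.coInd r 𝓤)) where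
  f0 := swapTo r 𝓤 hN K.K0
  f1 := swapTo r 𝓤 hN K.K1
  comm0 g Ψ := by
    refine LinearMap.ext fun n => Subtype.ext (funext fun x => ?_)
    show ((homCx (Rep.res r N) K).coIndFun0 r 𝓤 Ψ (x * g) : N →ₗ[k] K.K0) (N.ρ x n)
      = ((homCx (Rep.res r N) K).coIndFun0 r 𝓤 Ψ (x * g) : N →ₗ[k] K.K0)
        (N.ρ (x * g) (N.ρ g⁻¹ n))
    rw [← Module.End.mul_apply, ← map_mul, mul_assoc, mul_inv_cancel, mul_one]
  comm1 g Ψ := by
    refine LinearMap.ext fun n => Subtype.ext (funext fun x => ?_)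
    show ((homCx (Rep.res r N) K).coIndFun1 r 𝓤 Ψ (x * g) : N →ₗ[k] K.K1) (N.ρ x n)
      = ((homCx (Rep.res r N) K).coIndFun1 r 𝓤 Ψ (x * g) : N →ₗ[k] K.K1)
        (N.ρ (x * g) (N.ρ g⁻¹ n))
    rw [← Module.End.mul_apply, ← map_mul, mul_assoc, mul_inv_cancel, mul_one]
  commd _ := rfl

/-- `swapFrom` as a morphism of complexes of `G`-modules. -/
def swapFromCx (hN : IsSmooth 𝓤 N) [Module.Finite k N] (K : Cx k D) :
    CxHom (homCx N (K.coInd r 𝓤)) ((homCx (Rep.res r N) K).coInd r 𝓤) where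
  f0 := swapFrom r 𝓤 hN K.K0
  f1 := swapFrom r 𝓤 hN K.K1
  comm0 g Φ := by
    refine Subtype.ext (funext fun x => LinearMap.ext fun n => ?_)
    show K.coIndFun0 r 𝓤 ((Φ : N →ₗ[k] (K.coInd r 𝓤).K0) (N.ρ g⁻¹ (N.ρ x⁻¹ n))) (x * g)
      = K.coIndFun0 r 𝓤 ((Φ : N →ₗ[k] (K.coInd r 𝓤).K0) (N.ρ (x * g)⁻¹ n)) (x * g)
    rw [mul_inv_rev, map_mul, Module.End.mul_apply]
  comm1 g Φ := by
    refine Subtype.ext (funext fun x => LinearMap.ext fun n => ?_)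
    show K.coIndFun1 r 𝓤 ((Φ : N →ₗ[k] (K.coInd r 𝓤).K1) (N.ρ g⁻¹ (N.ρ x⁻¹ n))) (x * g)
      = K.coIndFun1 r 𝓤 ((Φ : N →ₗ[k] (K.coInd r 𝓤).K1) (N.ρ (x * g)⁻¹ n)) (x * g)
    rw [mul_inv_rev, map_mul, Module.End.mul_apply]
  commd _ := rfl

end Swap

/-! ### Shapiro with coefficients -/

section ShapiroHom

variable (r : D →* G) (𝓤 : Levels G) (K : Cx k D) (N : Rep.{0} k G)

/-- **Shapiro in degree 1 with coefficients** (surjectivity, exact on cochains). -/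
theorem shapiro1_hom (hK : K.Smooth (𝓤.comap r)) (hN : IsSmooth 𝓤 N) [hfin : Module.Finite k N]
    (c : T1 (homCx (Rep.res r N) K)) (hc : c ∈ ZZ1 (𝓤.comap r) (homCx (Rep.res r N) K)) :
    ∃ z : T1 (homCx N (K.coInd r 𝓤)), z ∈ ZZ1 𝓤 (homCx N (K.coInd r 𝓤)) ∧
      (homCxPost (Rep.res r N) (evCx r 𝓤 K)).onT1 (resHomT1 r N (K.coInd r 𝓤) z) = c := by
  have hsm : (homCx (Rep.res r N) K).Smooth (𝓤.comap r) :=
    homCx_smooth (𝓤.comap r) K hK (Rep.res r N) (coind_isSmooth_res r 𝓤 N hN) hfin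
  obtain ⟨Z, hZ, hev⟩ := shapiro1_coInd r 𝓤 (homCx (Rep.res r N) K) hsm c hc
  refine ⟨(swapToCx r 𝓤 hN K).onT1 Z, CxHom.onT1_mem_ZZ1 _ 𝓤 hZ, ?_⟩
  rw [← hev]
  refine Prod.ext (funext fun d => LinearMap.ext fun n => ?_) (LinearMap.ext fun n => ?_)
  · show ((homCx (Rep.res r N) K).coIndFun0 r 𝓤 (Z.1 (r d)) 1 : N →ₗ[k] K.K0) (N.ρ 1 n) = _
    rw [map_one, Module.End.one_apply]
    rfl
  · show ((homCx (Rep.res r N) K).coIndFun1 r 𝓤 Z.2 1 : N →ₗ[k] K.K1) (N.ρ 1 n) = _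
    rw [map_one, Module.End.one_apply]
    rfl

/-- **Shapiro in degree 2 with coefficients** (injectivity, on cochains). -/
theorem shapiro2_hom (hK : K.Smooth (𝓤.comap r)) (hN : IsSmooth 𝓤 N) [hfin : Module.Finite k N]
    (z : T2 (homCx N (K.coInd r 𝓤))) (hz : z ∈ ZZ2 𝓤 (homCx N (K.coInd r 𝓤)))
    (h : (homCxPost (Rep.res r N) (evCx r 𝓤 K)).onT2 (resHomT2 r N (K.coInd r 𝓤) z)
      ∈ BB2 (𝓤.comap r) (homCx (Rep.res r N) K)) :
    z ∈ BB2 𝓤 (homCx N (K.coInd r 𝓤)) := by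
  have hsm : (homCx (Rep.res r N) K).Smooth (𝓤.comap r) :=
    homCx_smooth (𝓤.comap r) K hK (Rep.res r N) (coind_isSmooth_res r 𝓤 N hN) hfin
  have hZ := CxHom.onT2_mem_ZZ2 (swapFromCx r 𝓤 hN K) 𝓤 hz
  have hev : (evCx r 𝓤 (homCx (Rep.res r N) K)).onT2
      (resT2 r ((homCx (Rep.res r N) K).coInd r 𝓤) ((swapFromCx r 𝓤 hN K).onT2 z))
      = (homCxPost (Rep.res r N) (evCx r 𝓤 K)).onT2 (resHomT2 r N (K.coInd r 𝓤) z) := by
    refine Prod.ext (funext fun p => LinearMap.ext fun n => ?_)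
      (funext fun d => LinearMap.ext fun n => ?_)
    · show K.coIndFun0 r 𝓤 ((z.1 (r p.1, r p.2) : N →ₗ[k] (K.coInd r 𝓤).K0) (N.ρ 1⁻¹ n)) 1 = _
      rw [inv_one, map_one, Module.End.one_apply]
      rfl
    · show K.coIndFun1 r 𝓤 ((z.2 (r d) : N →ₗ[k] (K.coInd r 𝓤).K1) (N.ρ 1⁻¹ n)) 1 = _
      rw [inv_one, map_one, Module.End.one_apply]
      rfl
  rw [← hev] at h
  have hB := shapiro2_coInd r 𝓤 (homCx (Rep.res r N) K) hsm _ hZ h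
  have hB' := CxHom.onT2_mem_BB2 (swapToCx r 𝓤 hN K) 𝓤 hB
  have e : (swapToCx r 𝓤 hN K).onT2 ((swapFromCx r 𝓤 hN K).onT2 z) = z := by
    refine Prod.ext (funext fun p => ?_) (funext fun g => ?_)
    · exact swapTo_swapFrom r 𝓤 hN K.K0 (z.1 p)
    · exact swapTo_swapFrom r 𝓤 hN K.K1 (z.2 g)
  rwa [e] at hB'

end ShapiroHom

end Fermat.Agent.F4
end MergeWrap_F4_Coind_HomSwap

section MergeWrap_F4_Coind_Prod -- from F4/Coind/Prod.lean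

/-!
# F4 / Coind / Prod : finite products of 2-term complexes, Shapiro for a product of coinductions
(helper13, seat COIND)

* `Cx.pi K` : the product of a family of complexes, `Cx.piProj`;
* `Cx.pi_smooth` (finite families);
* `coindPiCx r 𝓤 K = ∏ᵢ coInd_{rᵢ} Kᵢ`, `evPi` : the evaluation `(∏ coInd Kⱼ)|_{Dᵢ} → Kᵢ`;
* `shapiro1_pi`, `shapiro2_pi` : Shapiro's lemma for `∏ᵢ coInd_{rᵢ} Kᵢ` with coefficients.
-/

set_option autoImplicit false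

open CategoryTheory groupCohomology

namespace Fermat.Agent.F4

section Pi

variable {k G : Type} [CommRing k] [Group G] {ι : Type}

/-- The product of a family of representations. -/
def cxPiRepr (A : ι → Rep.{0} k G) : Representation k G (∀ i, A i) where
  toFun g := LinearMap.pi fun i => (A i).ρ g ∘ₗ LinearMap.proj i
  map_one' := by
    refine LinearMap.ext fun x => funext fun i => ?_
    simp
  map_mul' g h := by
    refine LinearMap.ext fun x => funext fun i => ?_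
    simp

/-- The product of a family of representations, as a `Rep`. -/
abbrev cxPiRep (A : ι → Rep.{0} k G) : Rep.{0} k G := Rep.of (cxPiRepr A)

lemma cxPiRep_ρ_apply (A : ι → Rep.{0} k G) (g : G) (x : ∀ i, A i) (i : ι) :
    ((cxPiRep A).ρ g x : ∀ i, A i) i = (A i).ρ g (x i) := rfl

/-- The product of a family of 2-term complexes. -/
def Cx.pi (K : ι → Cx k G) : Cx k G where
  K0 := cxPiRep fun i => (K i).K0
  K1 := cxPiRep fun i => (K i).K1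
  d := LinearMap.pi fun i => (K i).d ∘ₗ LinearMap.proj i
  comm g x := funext fun i => (K i).comm g (x i)

/-- The projections of the product. -/
def Cx.piProj (K : ι → Cx k G) (i : ι) : CxHom (Cx.pi K) (K i) where
  f0 := LinearMap.proj i
  f1 := LinearMap.proj i
  comm0 _ _ := rfl
  comm1 _ _ := rfl
  commd _ := rfl

lemma Cx.pi_smooth [Finite ι] (𝓤 : Levels G) (K : ι → Cx k G) (hK : ∀ i, (K i).Smooth 𝓤) :
    (Cx.pi K).Smooth 𝓤 := by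
  constructor
  · intro x
    obtain ⟨U, hU, h⟩ := 𝓤.coind_exists_le_of_finite (Set.univ : Set ι) Set.finite_univ
      (fun i U => ∀ g ∈ U, (K i).K0.ρ g ((x : ∀ i, (K i).K0) i) = (x : ∀ i, (K i).K0) i)
      (fun i _ => (hK i).1 _) (fun _ _ _ hVU h g hg => h g (hVU hg))
    exact ⟨U, hU, fun g hg => funext fun i => h i (Set.mem_univ i) g hg⟩
  · intro x
    obtain ⟨U, hU, h⟩ := 𝓤.coind_exists_le_of_finite (Set.univ : Set ι) Set.finite_univ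
      (fun i U => ∀ g ∈ U, (K i).K1.ρ g ((x : ∀ i, (K i).K1) i) = (x : ∀ i, (K i).K1) i)
      (fun i _ => (hK i).2 _) (fun _ _ _ hVU h g hg => h g (hVU hg))
    exact ⟨U, hU, fun g hg => funext fun i => h i (Set.mem_univ i) g hg⟩

variable (N : Rep.{0} k G) (K : ι → Cx k G)

/-- The projections are jointly injective on total 2-cochains of `Hom(N, ∏ K)`. -/
lemma pi_T2_ext {w w' : T2 (homCx N (Cx.pi K))}
    (h : ∀ i, (homCxPost N (Cx.piProj K i)).onT2 w = (homCxPost N (Cx.piProj K i)).onT2 w') :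
    w = w' := by
  refine Prod.ext (funext fun p => LinearMap.ext fun n => funext fun i => ?_)
    (funext fun g => LinearMap.ext fun n => funext fun i => ?_)
  · have := congrArg (fun f : N →ₗ[k] (K i).K0 => f n) (congrFun (congrArg Prod.fst (h i)) p)
    exact this
  · have := congrArg (fun f : N →ₗ[k] (K i).K1 => f n) (congrFun (congrArg Prod.snd (h i)) g)
    exact this

/-- Assemble a family of total 1-cochains. -/
def piT1 (z : ∀ i, T1 (homCx N (K i))) : T1 (homCx N (Cx.pi K)) :=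
  (fun g => LinearMap.pi fun i => ((z i).1 g : N →ₗ[k] (K i).K0),
    LinearMap.pi fun i => ((z i).2 : N →ₗ[k] (K i).K1))

@[simp] lemma piProj_piT1 (z : ∀ i, T1 (homCx N (K i))) (i : ι) :
    (homCxPost N (Cx.piProj K i)).onT1 (piT1 N K z) = z i := rfl

variable (𝓤 : Levels G)

/-- A family of level-constant cochains assembles to a level-constant cochain. -/
lemma isLC₁_of_proj [Finite ι] (a : G → (homCx N (Cx.pi K)).K0)
    (h : ∀ i, IsLC₁ 𝓤 (fun g => (homCxPost N (Cx.piProj K i)).f0 (a g))) : IsLC₁ 𝓤 a := by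
  obtain ⟨U, hU, hU'⟩ := 𝓤.coind_exists_le_of_finite (Set.univ : Set ι) Set.finite_univ
    (fun i U => ∀ g s, s ∈ U →
      (homCxPost N (Cx.piProj K i)).f0 (a (g * s)) = (homCxPost N (Cx.piProj K i)).f0 (a g))
    (fun i _ => h i) (fun _ _ _ hVU h g s hs => h g s (hVU hs))
  refine ⟨U, hU, fun g s hs => LinearMap.ext fun n => funext fun i => ?_⟩
  have := congrArg (fun f : N →ₗ[k] (K i).K0 => f n) (hU' i (Set.mem_univ i) g s hs)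
  exact this

/-- Membership in `ZZ¹` of `Hom(N, ∏ K)` is tested on the factors. -/
lemma pi_mem_ZZ1 [Finite ι] (z : T1 (homCx N (Cx.pi K)))
    (h : ∀ i, (homCxPost N (Cx.piProj K i)).onT1 z ∈ ZZ1 𝓤 (homCx N (K i))) :
    z ∈ ZZ1 𝓤 (homCx N (Cx.pi K)) := by
  refine Submodule.mem_inf.2 ⟨LinearMap.mem_ker.2 ?_, Submodule.mem_prod.2 ⟨?_, trivial⟩⟩
  · refine pi_T2_ext N K fun i => ?_
    rw [← CxHom.D1_onT1, map_zero]
    exact LinearMap.mem_ker.1 (Submodule.mem_inf.1 (h i)).1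
  · exact isLC₁_of_proj N K 𝓤 z.1 fun i => (Submodule.mem_prod.1 (Submodule.mem_inf.1 (h i)).2).1

/-- Membership in `BB²` of `Hom(N, ∏ K)` is tested on the factors. -/
lemma pi_mem_BB2 [Finite ι] (z : T2 (homCx N (Cx.pi K)))
    (h : ∀ i, (homCxPost N (Cx.piProj K i)).onT2 z ∈ BB2 𝓤 (homCx N (K i))) :
    z ∈ BB2 𝓤 (homCx N (Cx.pi K)) := by
  have h' := fun i => (mem_BB2_iff 𝓤 _ _).1 (h i)
  choose c hc hD using h'
  refine (mem_BB2_iff 𝓤 _ _).2 ⟨piT1 N K c, ?_, ?_⟩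
  · exact isLC₁_of_proj N K 𝓤 _ fun i => hc i
  · refine pi_T2_ext N K fun i => ?_
    rw [← CxHom.D1_onT1, piProj_piT1]
    exact hD i

end Pi

/-! ### Products of coinductions -/

section CoindPi

variable {k G : Type} [Field k] [Group G] {ι : Type} {D : ι → Type} [∀ i, Group (D i)]
  (r : ∀ i, D i →* G) (𝓤 : Levels G) (K : ∀ i, Cx k (D i))

/-- `∏ᵢ coInd_{rᵢ} Kᵢ`. -/
abbrev coindPiCx : Cx k G := Cx.pi fun i => (K i).coInd (r i) 𝓤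

lemma coindPiCx_smooth [Finite ι] : (coindPiCx r 𝓤 K).Smooth 𝓤 :=
  Cx.pi_smooth 𝓤 _ fun i => Cx.coInd_smooth (r i) 𝓤 (K i)

/-- The `i`-th component of an element of `(∏ coInd K)⁰`, as a function. -/
def coindPiFun0 (x : (coindPiCx r 𝓤 K).K0) (i : ι) : G → (K i).K0 :=
  (K i).coIndFun0 (r i) 𝓤 ((show ∀ j, ((K j).coInd (r j) 𝓤).K0 from x) i)

/-- The `i`-th component of an element of `(∏ coInd K)¹`, as a function. -/
def coindPiFun1 (x : (coindPiCx r 𝓤 K).K1) (i : ι) : G → (K i).K1 :=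
  (K i).coIndFun1 (r i) 𝓤 ((show ∀ j, ((K j).coInd (r j) 𝓤).K1 from x) i)

/-- The evaluation `(∏ⱼ coInd Kⱼ)|_{Dᵢ} → Kᵢ`. -/
def evPi (i : ι) : CxHom ((coindPiCx r 𝓤 K).res (r i)) (K i) where
  f0 :=
    { toFun := fun x => coindPiFun0 r 𝓤 K x i 1
      map_add' := fun _ _ => rfl
      map_smul' := fun _ _ => rfl }
  f1 :=
    { toFun := fun x => coindPiFun1 r 𝓤 K x i 1
      map_add' := fun _ _ => rfl
      map_smul' := fun _ _ => rfl }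
  comm0 d x := (evCx (r i) 𝓤 (K i)).comm0 d ((show ∀ j, ((K j).coInd (r j) 𝓤).K0 from x) i)
  comm1 d x := (evCx (r i) 𝓤 (K i)).comm1 d ((show ∀ j, ((K j).coInd (r j) 𝓤).K1 from x) i)
  commd _ := rfl

variable (N : Rep.{0} k G)

/-- **Shapiro in degree 1 for `∏ coInd K`** (surjectivity, exact on cochains). -/
theorem shapiro1_pi [Finite ι] (hK : ∀ i, (K i).Smooth (𝓤.comap (r i))) (hN : IsSmooth 𝓤 N)
    [hfin : Module.Finite k N] (c : ∀ i, T1 (homCx (Rep.res (r i) N) (K i)))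
    (hc : ∀ i, c i ∈ ZZ1 (𝓤.comap (r i)) (homCx (Rep.res (r i) N) (K i))) :
    ∃ z : T1 (homCx N (coindPiCx r 𝓤 K)), z ∈ ZZ1 𝓤 (homCx N (coindPiCx r 𝓤 K)) ∧
      ∀ i, (homCxPost (Rep.res (r i) N) (evPi r 𝓤 K i)).onT1
        (resHomT1 (r i) N (coindPiCx r 𝓤 K) z) = c i := by
  have h := fun i => shapiro1_hom (r i) 𝓤 (K i) N (hK i) hN (c i) (hc i)
  choose z hz hev using h
  refine ⟨piT1 N (fun i => (K i).coInd (r i) 𝓤) z,
    pi_mem_ZZ1 N (fun i => (K i).coInd (r i) 𝓤) 𝓤 _ fun i => ?_, fun i => ?_⟩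
  · rw [piProj_piT1]
    exact hz i
  · rw [← hev i]
    rfl

/-- **Shapiro in degree 2 for `∏ coInd K`** (injectivity, on cochains). -/
theorem shapiro2_pi [Finite ι] (hK : ∀ i, (K i).Smooth (𝓤.comap (r i))) (hN : IsSmooth 𝓤 N)
    [hfin : Module.Finite k N] (z : T2 (homCx N (coindPiCx r 𝓤 K)))
    (hz : z ∈ ZZ2 𝓤 (homCx N (coindPiCx r 𝓤 K)))
    (h : ∀ i, (homCxPost (Rep.res (r i) N) (evPi r 𝓤 K i)).onT2
        (resHomT2 (r i) N (coindPiCx r 𝓤 K) z)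
      ∈ BB2 (𝓤.comap (r i)) (homCx (Rep.res (r i) N) (K i))) :
    z ∈ BB2 𝓤 (homCx N (coindPiCx r 𝓤 K)) := by
  refine pi_mem_BB2 N (fun i => (K i).coInd (r i) 𝓤) 𝓤 z fun i => ?_
  refine shapiro2_hom (r i) 𝓤 (K i) N (hK i) hN _
    (CxHom.onT2_mem_ZZ2 (homCxPost N (Cx.piProj (fun i => (K i).coInd (r i) 𝓤) i)) 𝓤 hz) ?_
  exact h i

end CoindPi

end Fermat.Agent.F4
end MergeWrap_F4_Coind_Prod
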